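/-
Program A, leaf FINCHAR (Mathlib + landed `S22.H75.fg_Gamma0`):
finiteness of the set of characters of `Γ₀(N)` of exponent `m`
(the pigeonhole set of (RIG)).
-/
import Mathlib
import Fermat.Agent.S22.H75.Gamma0FG

set_option autoImplicit false

namespace Fermat.Agent.S42.H20

open CongruenceSubgroup

/-- A finitely generated group has finitely many homomorphisms to a finite monoid. -/
theorem finite_monoidHom_of_fg (G H : Type*) [Group G] [Group.FG G] [Monoid H] [Finite H] :
    Finite (G →* H) := by
  obtain ⟨X, hX⟩ := Group.fg_def.mp (inferInstance : Group.FG G)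
  have hinj : Function.Injective (fun (f : G →* H) (x : X) => f x) := by
    intro f g hfg
    refine MonoidHom.eq_of_eqOn_dense (s := (X : Set G)) ?_ ?_
    · rw [hX]
    · intro x hx
      exact congrFun hfg ⟨x, hx⟩
  exact Finite.of_injective _ hinj

/-- The `m`-th roots of unity in `ℂˣ` form a finite set. -/
theorem finite_rootsOfUnity_units (m : ℕ) (hm : m ≠ 0) : Finite (rootsOfUnity m ℂ) := by
  have : NeZero m := ⟨hm⟩
  infer_instance

/-- A finitely generated group has finitely many characters `χ : G →* ℂˣ` with `χ ^ m = 1`. -/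
theorem finite_unitChar (G : Type*) [Group G] [Group.FG G] (m : ℕ) (hm : m ≠ 0) :
    {χ : G →* ℂˣ | ∀ g, χ g ^ m = 1}.Finite := by
  have := finite_rootsOfUnity_units m hm
  have : Finite (G →* rootsOfUnity m ℂ) := finite_monoidHom_of_fg G _
  have hsub : {χ : G →* ℂˣ | ∀ g, χ g ^ m = 1} ⊆
      Set.range (fun f : G →* rootsOfUnity m ℂ => (rootsOfUnity m ℂ).subtype.comp f) := by
    intro χ hχ
    refine ⟨χ.codRestrict (rootsOfUnity m ℂ) (fun g => ?_), ?_⟩
    · rw [mem_rootsOfUnity]
      exact hχ g
    · ext g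
      rfl
  exact (Set.finite_range _).subset hsub

/-- `Γ₀(N)` has finitely many characters `χ : Γ₀(N) →* ℂˣ` with `χ ^ m = 1`. -/
theorem finite_unitChar_Gamma0 (N : ℕ) [NeZero N] (m : ℕ) (hm : m ≠ 0) :
    {χ : Gamma0 N →* ℂˣ | ∀ g, χ g ^ m = 1}.Finite := by
  have : Group.FG (Gamma0 N) := Fermat.Agent.S22.H75.fg_Gamma0 N
  exact finite_unitChar _ m hm

/-- `Γ₀(N)` has finitely many homomorphisms to a finite group. -/
theorem finite_monoidHom_Gamma0 (N : ℕ) [NeZero N] (H : Type*) [Monoid H] [Finite H] :
    Finite (Gamma0 N →* H) := by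
  have : Group.FG (Gamma0 N) := Fermat.Agent.S22.H75.fg_Gamma0 N
  exact finite_monoidHom_of_fg _ H

/-- `Γ₀(N)` has finitely many additive characters with values in `ZMod m`, `m ≠ 0`. -/
theorem finite_addHom_Gamma0 (N : ℕ) [NeZero N] (m : ℕ) (hm : m ≠ 0) :
    Finite (Additive (Gamma0 N) →+ ZMod m) := by
  have : NeZero m := ⟨hm⟩
  have := finite_monoidHom_Gamma0 N (Multiplicative (ZMod m))
  exact Finite.of_injective
    (fun f : Additive (Gamma0 N) →+ ZMod m => AddMonoidHom.toMultiplicativeRight f)
    (AddMonoidHom.toMultiplicativeRight.injective)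

/-- Pigeonhole form used by (RIG): among `n + 1` characters of exponent `m`, where `n` bounds
the number of such characters, two coincide.  Stated for an arbitrary indexing type. -/
theorem exists_ne_char_eq (N : ℕ) [NeZero N] (m : ℕ) (hm : m ≠ 0) {ι : Type*} [Infinite ι]
    (χ : ι → (Gamma0 N →* ℂˣ)) (hχ : ∀ i g, χ i g ^ m = 1) : ∃ i j, i ≠ j ∧ χ i = χ j := by
  by_contra h
  push Not at h
  have hinj : Function.Injective χ := fun i j hij => by
    by_contra hne
    exact h i j hne hij
  have hfin := finite_unitChar_Gamma0 N m hm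
  have : (Set.range χ).Finite := hfin.subset (by rintro _ ⟨i, rfl⟩; exact hχ i)
  exact Set.infinite_range_of_injective hinj this

end Fermat.Agent.S42.H20
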