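/-
Program A, holomorphic division on the upper half plane (Mathlib only):
if `G₁ ^ p = K · G₂ ^ p` with `G₁, G₂, K` holomorphic on `ℍ`, `G₂ ≠ 0`, `p ≠ 0`, then
`G₁ = G · G₂` with `G` holomorphic and `G ^ p = K`.
-/
import Mathlib

set_option autoImplicit false

open UpperHalfPlane Filter Topology
open scoped Manifold

namespace Fermat.Agent.S42.H20

/-- A holomorphic function on `ℍ` that is not identically zero has isolated zeros: it is
non-zero on a punctured neighbourhood of every point of the open upper half plane. -/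
theorem eventually_ne_zero_of_mdiff {G : ℍ → ℂ} (hG : MDiff G) (h0 : G ≠ 0) {z : ℂ}
    (hz : z ∈ {z : ℂ | 0 < z.im}) : ∀ᶠ y in 𝓝[≠] z, (G ∘ ofComplex) y ≠ 0 := by
  have hUo : IsOpen {z : ℂ | 0 < z.im} := isOpen_upperHalfPlaneSet
  have hUc : IsPreconnected {z : ℂ | 0 < z.im} := (convex_halfSpace_im_gt 0).isPreconnected
  have han : AnalyticOnNhd ℂ (G ∘ ofComplex) {z : ℂ | 0 < z.im} :=
    (UpperHalfPlane.mdifferentiable_iff.mp hG).analyticOnNhd hUo
  rcases (han z hz).eventually_eq_zero_or_eventually_ne_zero with h | h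
  · exfalso
    have h1 := han.eqOn_zero_of_preconnected_of_eventuallyEq_zero hUc hz h
    apply h0
    funext τ
    have h2 := h1 τ.2
    simpa [Function.comp, ofComplex_apply] using h2
  · exact h

/-- **Holomorphic division.** -/
theorem exists_mdiff_div {G₁ G₂ K : ℍ → ℂ} (h₁ : MDiff G₁) (h₂ : MDiff G₂) (hK : MDiff K)
    (h₂0 : G₂ ≠ 0) {p : ℕ} (hp : p ≠ 0) (h : ∀ τ, G₁ τ ^ p = K τ * G₂ τ ^ p) :
    ∃ G : ℍ → ℂ, MDiff G ∧ (∀ τ, G₁ τ = G τ * G₂ τ) ∧ ∀ τ, G τ ^ p = K τ := by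
  have hUo : IsOpen {z : ℂ | 0 < z.im} := isOpen_upperHalfPlaneSet
  have a₁ : AnalyticOnNhd ℂ (G₁ ∘ ofComplex) {z : ℂ | 0 < z.im} :=
    (UpperHalfPlane.mdifferentiable_iff.mp h₁).analyticOnNhd hUo
  have a₂ : AnalyticOnNhd ℂ (G₂ ∘ ofComplex) {z : ℂ | 0 < z.im} :=
    (UpperHalfPlane.mdifferentiable_iff.mp h₂).analyticOnNhd hUo
  have ak : AnalyticOnNhd ℂ (K ∘ ofComplex) {z : ℂ | 0 < z.im} :=
    (UpperHalfPlane.mdifferentiable_iff.mp hK).analyticOnNhd hUo
  have hid : ∀ z : ℂ, (G₁ ∘ ofComplex) z ^ p = (K ∘ ofComplex) z * (G₂ ∘ ofComplex) z ^ p :=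
    fun z => h (ofComplex z)
  have hne : ∀ z ∈ {z : ℂ | 0 < z.im}, ∀ᶠ y in 𝓝[≠] z, (G₂ ∘ ofComplex) y ≠ 0 :=
    fun z hz => eventually_ne_zero_of_mdiff h₂ h₂0 hz
  -- the meromorphic quotient
  set q : ℂ → ℂ := (G₁ ∘ ofComplex) / (G₂ ∘ ofComplex) with hq
  have hqm : MeromorphicOn q {z : ℂ | 0 < z.im} := fun z hz =>
    ((a₁ z hz).meromorphicAt).div ((a₂ z hz).meromorphicAt)
  have hqp : ∀ z ∈ {z : ℂ | 0 < z.im}, (q ^ p) =ᶠ[𝓝[≠] z] (K ∘ ofComplex) := by
    intro z hz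
    filter_upwards [hne z hz] with y hy
    simp only [hq, Pi.pow_apply, Pi.div_apply]
    rw [div_pow, hid y]
    field_simp
  have hord : ∀ z ∈ {z : ℂ | 0 < z.im}, 0 ≤ meromorphicOrderAt q z := by
    intro z hz
    have e1 : meromorphicOrderAt (q ^ p) z = meromorphicOrderAt (K ∘ ofComplex) z :=
      meromorphicOrderAt_congr (hqp z hz)
    rw [meromorphicOrderAt_pow (hqm z hz)] at e1
    have hk : 0 ≤ meromorphicOrderAt (K ∘ ofComplex) z := (ak z hz).meromorphicOrderAt_nonneg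
    rw [← e1] at hk
    by_contra hneg
    rw [not_le] at hneg
    -- `ord q < 0` is a finite negative integer
    have hne_top : meromorphicOrderAt q z ≠ ⊤ := fun ht => by
      rw [ht] at hneg
      exact absurd hneg (not_lt.2 le_top)
    obtain ⟨m, hm⟩ := WithTop.ne_top_iff_exists.1 hne_top
    rw [← hm] at hneg hk
    have hm0 : m < 0 := by exact_mod_cast hneg
    have hpm : (0 : WithTop ℤ) ≤ ((p * m : ℤ) : WithTop ℤ) := by
      have : ((p : ℕ) : WithTop ℤ) * ((m : ℤ) : WithTop ℤ) = ((p * m : ℤ) : WithTop ℤ) := by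
        push_cast
        rfl
      rw [← this]
      exact hk
    have hpm' : (0 : ℤ) ≤ p * m := by exact_mod_cast hpm
    have hp0 : (0 : ℤ) < p := by exact_mod_cast Nat.pos_of_ne_zero hp
    nlinarith
  -- its normal form is analytic
  set Q : ℂ → ℂ := toMeromorphicNFOn q {z : ℂ | 0 < z.im} with hQ
  have hQnf : MeromorphicNFOn Q {z : ℂ | 0 < z.im} := meromorphicNFOn_toMeromorphicNFOn q _
  have hQan : AnalyticOnNhd ℂ Q {z : ℂ | 0 < z.im} := by
    intro z hz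
    refine ((hQnf hz).meromorphicOrderAt_nonneg_iff_analyticAt).1 ?_
    rw [hQ, meromorphicOrderAt_toMeromorphicNFOn hqm hz]
    exact hord z hz
  have hQq : ∀ z ∈ {z : ℂ | 0 < z.im}, Q =ᶠ[𝓝[≠] z] q := fun z hz =>
    hqm.toMeromorphicNFOn_eq_self_on_nhdsNE hz
  -- `Q · f₂ = f₁` on the upper half plane
  have hQf : ∀ z ∈ {z : ℂ | 0 < z.im}, Q z * (G₂ ∘ ofComplex) z = (G₁ ∘ ofComplex) z := by
    intro z hz
    have e1 : (fun y => Q y * (G₂ ∘ ofComplex) y) =ᶠ[𝓝[≠] z] (G₁ ∘ ofComplex) := by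
      filter_upwards [hQq z hz, hne z hz] with y hy hy2
      rw [hy]
      simp only [hq, Pi.div_apply]
      field_simp
    have c1 : ContinuousAt (fun y => Q y * (G₂ ∘ ofComplex) y) z :=
      ((hQan z hz).continuousAt).mul ((a₂ z hz).continuousAt)
    have c2 : ContinuousAt (G₁ ∘ ofComplex) z := (a₁ z hz).continuousAt
    exact ((c1.eventuallyEq_nhds_iff_eventuallyEq_nhdsNE c2).1 e1).eq_of_nhds
  -- `Q ^ p = k` on the upper half plane
  have hQp : ∀ z ∈ {z : ℂ | 0 < z.im}, Q z ^ p = (K ∘ ofComplex) z := by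
    intro z hz
    have e1 : (fun y => Q y ^ p) =ᶠ[𝓝[≠] z] (K ∘ ofComplex) := by
      filter_upwards [hQq z hz, hqp z hz] with y hy hy2
      rw [hy]
      exact hy2
    have c1 : ContinuousAt (fun y => Q y ^ p) z := ((hQan z hz).continuousAt).pow p
    have c2 : ContinuousAt (K ∘ ofComplex) z := (ak z hz).continuousAt
    exact ((c1.eventuallyEq_nhds_iff_eventuallyEq_nhdsNE c2).1 e1).eq_of_nhds
  refine ⟨fun τ => Q τ, ?_, ?_, ?_⟩
  · rw [UpperHalfPlane.mdifferentiable_iff]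
    refine hQan.differentiableOn.congr ?_
    intro z hz
    simp only [Function.comp, ofComplex_apply_of_im_pos hz]
  · intro τ
    have h3 := hQf τ τ.2
    simp only [Function.comp, ofComplex_apply] at h3
    exact h3.symm
  · intro τ
    have h3 := hQp τ τ.2
    simp only [Function.comp, ofComplex_apply] at h3
    exact h3

/-- Two holomorphic functions on `ℍ` whose product with a non-zero holomorphic function agree
are equal (the ring of holomorphic functions on `ℍ` is a domain). -/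
theorem eq_of_mul_eq_mul_of_mdiff {F₁ F₂ G : ℍ → ℂ} (h₁ : MDiff F₁) (h₂ : MDiff F₂) (hG : MDiff G)
    (hG0 : G ≠ 0) (h : ∀ τ, F₁ τ * G τ = F₂ τ * G τ) : F₁ = F₂ := by
  have hUo : IsOpen {z : ℂ | 0 < z.im} := isOpen_upperHalfPlaneSet
  have a₁ : AnalyticOnNhd ℂ (F₁ ∘ ofComplex) {z : ℂ | 0 < z.im} :=
    (UpperHalfPlane.mdifferentiable_iff.mp h₁).analyticOnNhd hUo
  have a₂ : AnalyticOnNhd ℂ (F₂ ∘ ofComplex) {z : ℂ | 0 < z.im} :=
    (UpperHalfPlane.mdifferentiable_iff.mp h₂).analyticOnNhd hUo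
  funext τ
  have hz : (τ : ℂ) ∈ {z : ℂ | 0 < z.im} := τ.2
  have e1 : (F₁ ∘ ofComplex) =ᶠ[𝓝[≠] (τ : ℂ)] (F₂ ∘ ofComplex) := by
    filter_upwards [eventually_ne_zero_of_mdiff hG hG0 hz] with y hy
    have h3 := h (ofComplex y)
    exact mul_right_cancel₀ hy h3
  have h4 := (((a₁ _ hz).continuousAt).eventuallyEq_nhds_iff_eventuallyEq_nhdsNE
    ((a₂ _ hz).continuousAt)).1 e1 |>.eq_of_nhds
  simpa [Function.comp, ofComplex_apply] using h4

end Fermat.Agent.S42.H20
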