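/-
Program A, AJ skeleton (S42/H96), leaf 14 = `LeafAN6`:
root data over `ℂ` for a base-changed element `g = ι(u)`, `u ∈ F = ℚ̄(j_d)`, give root data
over `ℚ̄`: a polynomial `C` over `ℚ̄` with `evF C ≠ 0` and a holomorphic `p`-th root of `Θ(C)`
with the same character.

`u = A₀/B₀`, `C := A₀ · B₀^(p-1)`; from `g · b^p = c` we get
`Θ(C) · Θ_ℂ(b)^p = (G · Θ(B₀))^p` (KER over `ℂ`, helper37), and holomorphic division gives
the root `G' = G · Θ(B₀) / Θ_ℂ(b)`.
-/
import Mathlib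
import Fermat.Agent.S42.H96.Skeleton
import Fermat.Agent.S29.H37.FieldC
import Fermat.Agent.S42.H20.HolDiv

set_option autoImplicit false

open UpperHalfPlane CongruenceSubgroup ModularCurve
open Fermat.Agent.S24
open scoped MatrixGroups Manifold

namespace Fermat.Agent.S42.H20

open Fermat.Agent.S42.H96 Fermat.Agent.S29

theorem evC_eq_evFC (N : ℕ) : H96.evC N = H37.evFC N := rfl

theorem ThetaC_eq_ThetaC (N : ℕ) : H96.ThetaC N = H37.ThetaC N := rfl

/-- Composition of a holomorphic function on `ℍ` with the action of `γ ∈ SL(2, ℤ)`. -/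
theorem mdiff_comp_smul {F : ℍ → ℂ} (hF : MDiff F) (γ : SL(2, ℤ)) :
    MDiff (fun τ : ℍ => F (γ • τ)) := by
  have h1 : MDiff (fun τ : ℍ => (γ • τ : ℍ)) := by
    have := UpperHalfPlane.mdifferentiable_smul (g := ((γ : SL(2, ℤ)) : GL (Fin 2) ℝ)) (by simp)
    exact this
  exact hF.comp h1

/-- **Leaf 14 of the AJ skeleton.** -/
theorem leafAN6 (N p : ℕ) [NeZero N] (hp : p ≠ 0) : LeafAN6 N p := by
  intro ψ u g hbase hg0 hroot
  obtain ⟨c, b, G, hb, hgb, hG, hGp, hGc⟩ := hroot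
  rw [evC_eq_evFC] at hb hgb
  rw [ThetaC_eq_ThetaC] at hGp
  obtain ⟨A0, B0, hB0, hu⟩ := evF_frac N u
  have hg : g = H37.iotaF N u := Subtype.ext hbase
  have hu0 : u ≠ 0 := by
    rintro rfl
    apply hg0
    rw [hg, map_zero]
  have hA0 : evF N A0 ≠ 0 := by
    intro h0
    apply hu0
    rw [hu, h0, zero_div]
  -- `g · B₀(j) = A₀(j)` in `M_ℂ`
  have h1 : g * H37.evFC N (MvPolynomial.map iota B0) = H37.evFC N (MvPolynomial.map iota A0) := by
    rw [hg, ← H37.iotaF_evF, ← H37.iotaF_evF, ← map_mul, hu, div_mul_cancel₀ _ hB0]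
  obtain ⟨C, hCdef⟩ : ∃ C : MvPolynomial (N.divisors) Kbar, C = A0 * B0 ^ (p - 1) := ⟨_, rfl⟩
  have hC : evF N C ≠ 0 := by
    rw [hCdef, map_mul, map_pow]
    exact mul_ne_zero hA0 (pow_ne_zero _ hB0)
  refine ⟨C, hC, ?_⟩
  -- the key identity, first in `M_ℂ`, then on `ℍ`
  have h2 : H37.evFC N (MvPolynomial.map iota C * b ^ p - c * MvPolynomial.map iota B0 ^ p) = 0 := by
    rw [map_sub, map_mul, map_mul, map_pow, map_pow, ← hgb, hCdef, map_mul, map_pow, map_mul,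
      map_pow, ← h1]
    have h3 : H37.evFC N (MvPolynomial.map iota B0) * H37.evFC N (MvPolynomial.map iota B0) ^ (p - 1)
        = H37.evFC N (MvPolynomial.map iota B0) ^ p := mul_pow_sub_one hp _
    rw [mul_assoc g, h3]
    ring
  have h3 := (H37.ThetaC_eq_zero_iff N _).mpr h2
  have h3' : H37.ThetaC N (MvPolynomial.map iota C) * H37.ThetaC N b ^ p
      = H37.ThetaC N c * H37.ThetaC N (MvPolynomial.map iota B0) ^ p := by
    have h5 : H37.ThetaC N (MvPolynomial.map iota C * b ^ p)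
        = H37.ThetaC N (c * MvPolynomial.map iota B0 ^ p) :=
      sub_eq_zero.mp (by rw [← map_sub]; exact h3)
    rw [map_mul (H37.ThetaC N) (MvPolynomial.map iota C) (b ^ p),
      map_mul (H37.ThetaC N) c (MvPolynomial.map iota B0 ^ p),
      map_pow (H37.ThetaC N) b p, map_pow (H37.ThetaC N) (MvPolynomial.map iota B0) p] at h5
    exact h5
  have h4 : ∀ τ : ℍ, (G τ * Theta N B0 τ) ^ p = Theta N C τ * H37.ThetaC N b τ ^ p := by
    intro τ
    have h6 := congrFun h3' τ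
    rw [H37.ThetaC_map_iota, H37.ThetaC_map_iota] at h6
    have h7 : Theta N C τ * H37.ThetaC N b τ ^ p = H37.ThetaC N c τ * Theta N B0 τ ^ p := h6
    rw [mul_pow, hGp τ]
    exact h7.symm
  have hTB0 : MDiff (Theta N B0) := by
    rw [← H37.ThetaC_map_iota]
    exact H37.mdiff_ThetaC N _
  have hTC : MDiff (Theta N C) := by
    rw [← H37.ThetaC_map_iota]
    exact H37.mdiff_ThetaC N _
  have hTb : MDiff (H37.ThetaC N b) := H37.mdiff_ThetaC N b
  have hTb0 : H37.ThetaC N b ≠ 0 := (H37.ThetaC_ne_zero_iff N b).mpr hb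
  obtain ⟨G', hG', hdiv, hG'p⟩ := exists_mdiff_div (G₁ := fun τ => G τ * Theta N B0 τ)
    (G₂ := H37.ThetaC N b) (K := Theta N C) (hG.mul hTB0) hTb hTC hTb0 hp h4
  refine ⟨G', hG', hG'p, ?_⟩
  -- the character of `G'`
  intro γ τ
  have hinvB0 : ∀ τ : ℍ, Theta N B0 ((γ : SL(2, ℤ)) • τ) = Theta N B0 τ := by
    intro τ
    rw [← H37.ThetaC_map_iota]
    exact H37.ThetaC_smul_of_mem N γ.2 _ τ
  have hinvb : ∀ τ : ℍ, H37.ThetaC N b ((γ : SL(2, ℤ)) • τ) = H37.ThetaC N b τ :=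
    fun τ => H37.ThetaC_smul_of_mem N γ.2 b τ
  have key := eq_of_mul_eq_mul_of_mdiff (F₁ := fun τ : ℍ => G' ((γ : SL(2, ℤ)) • τ))
    (F₂ := fun τ : ℍ => chiOf p ψ γ * G' τ) (G := H37.ThetaC N b)
    (mdiff_comp_smul hG' (γ : SL(2, ℤ))) (mdifferentiable_const.mul hG') hTb hTb0 (by
      intro τ
      show G' ((γ : SL(2, ℤ)) • τ) * H37.ThetaC N b τ = chiOf p ψ γ * G' τ * H37.ThetaC N b τ
      calc G' ((γ : SL(2, ℤ)) • τ) * H37.ThetaC N b τ
          = G' ((γ : SL(2, ℤ)) • τ) * H37.ThetaC N b ((γ : SL(2, ℤ)) • τ) := by rw [hinvb τ]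
        _ = G ((γ : SL(2, ℤ)) • τ) * Theta N B0 ((γ : SL(2, ℤ)) • τ) :=
            (hdiv ((γ : SL(2, ℤ)) • τ)).symm
        _ = chiOf p ψ γ * G τ * Theta N B0 τ := by rw [hGc γ τ, hinvB0 τ]
        _ = chiOf p ψ γ * (G' τ * H37.ThetaC N b τ) := by rw [mul_assoc, hdiv τ]
        _ = chiOf p ψ γ * G' τ * H37.ThetaC N b τ := by ring)
  exact congrFun key τ

end Fermat.Agent.S42.H20
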