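/-
Program A, leaf TRDEG (Mathlib + the landed `S24.iota`):
`ℂ` has infinite transcendence degree over every countable subfield, in particular over
`ι(ℚ̄)`; this is the hypothesis "an infinite algebraically independent family" of (RIG).
-/
import Mathlib
import Fermat.Agent.S24.ModDefs

set_option autoImplicit false

namespace Fermat.Agent.S42.H20

open Cardinal

/-- `ℂ` contains an infinite (sequence-indexed) algebraically independent family over any
countable field `k` over which it is an algebra. -/
theorem exists_algebraicIndependent_nat (k : Type) [Field k] [Countable k] [Algebra k ℂ] :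
    ∃ s : ℕ → ℂ, AlgebraicIndependent k s := by
  obtain ⟨ι, v, hv⟩ := exists_isTranscendenceBasis' k ℂ
  have hk : #k ≤ ℵ₀ := Cardinal.mk_le_aleph0
  have hC : ℵ₀ < #ℂ := by
    rw [Cardinal.mk_complex]
    exact Cardinal.aleph0_lt_continuum
  have hcard : #ℂ = #ι :=
    IsAlgClosed.cardinal_eq_cardinal_transcendence_basis_of_aleph0_lt' v hv hk hC
  have hinf : Infinite ι := by
    rw [Cardinal.infinite_iff, ← hcard]
    exact hC.le
  exact ⟨v ∘ Infinite.natEmbedding ι, hv.1.comp _ (Infinite.natEmbedding ι).injective⟩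

/-- `AlgebraicClosure ℚ` is countable. -/
theorem countable_Kbar : Countable (AlgebraicClosure ℚ) := by
  rw [← Cardinal.mk_le_aleph0_iff]
  have halg : Algebra.IsAlgebraic ℚ (AlgebraicClosure ℚ) := AlgebraicClosure.isAlgebraic ℚ
  refine (Algebra.IsAlgebraic.cardinalMk_le_max ℚ (AlgebraicClosure ℚ)).trans ?_
  simp

/-- The instance of (RIG)'s transcendence hypothesis for `k = ℚ̄`, `C = ℂ` via the landed
embedding `S24.iota`. -/
theorem exists_algebraicIndependent_nat_iota :
    letI : Algebra Fermat.Agent.S24.Kbar ℂ := Fermat.Agent.S24.iota.toAlgebra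
    ∃ s : ℕ → ℂ, AlgebraicIndependent Fermat.Agent.S24.Kbar s := by
  letI : Algebra Fermat.Agent.S24.Kbar ℂ := Fermat.Agent.S24.iota.toAlgebra
  haveI : Countable Fermat.Agent.S24.Kbar := countable_Kbar
  exact exists_algebraicIndependent_nat Fermat.Agent.S24.Kbar

/-- Same statement for an arbitrary ring homomorphism `ℚ̄ →+* ℂ` taken as algebra structure. -/
theorem exists_algebraicIndependent_nat_of_ringHom (φ : AlgebraicClosure ℚ →+* ℂ) :
    letI : Algebra (AlgebraicClosure ℚ) ℂ := φ.toAlgebra
    ∃ s : ℕ → ℂ, AlgebraicIndependent (AlgebraicClosure ℚ) s := by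
  letI : Algebra (AlgebraicClosure ℚ) ℂ := φ.toAlgebra
  haveI : Countable (AlgebraicClosure ℚ) := countable_Kbar
  exact exists_algebraicIndependent_nat (AlgebraicClosure ℚ)

end Fermat.Agent.S42.H20
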